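import Mathlib

set_option autoImplicit false

open UpperHalfPlane hiding I
open Real Complex ModularForm EisensteinSeries Derivative Filter Function
open scoped Manifold MatrixGroups ModularForm Topology

namespace Fermat.Agent.S24.JDeriv

local notation "𝕢" => Periodic.qParam

/-- `f ∘ ofComplex` agrees everywhere with `cuspFunction 1 f ∘ 𝕢 1` for periodic `f`. -/
theorem comp_ofComplex_eq {f : ℍ → ℂ} (hper : Periodic (f ∘ ofComplex) (1 : ℝ)) (z : ℂ) :
    (f ∘ ofComplex) z = cuspFunction 1 f (𝕢 1 z) := by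
  have := Periodic.eq_cuspFunction (h := 1) one_ne_zero hper z
  exact this.symm

theorem hasDerivAt_qParam_one (z : ℂ) : HasDerivAt (𝕢 1) (2 * π * I * 𝕢 1 z) z := by
  unfold Periodic.qParam
  have h1 : HasDerivAt (fun z : ℂ => 2 * π * I * z / (1 : ℝ)) (2 * π * I) z := by
    simpa using ((hasDerivAt_id z).const_mul (2 * π * I)).div_const ((1 : ℝ) : ℂ)
  have := h1.cexp
  simpa [mul_comm] using this

/-- `D f τ = q · F'(q)` where `F` is the cusp function of `f`. -/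
theorem D_eq_qParam_mul_deriv {f : ℍ → ℂ} (hper : Periodic (f ∘ ofComplex) (1 : ℝ))
    (hhol : MDiff f) (hbdd : IsBoundedAtImInfty f) (τ : ℍ) :
    D f τ = 𝕢 1 τ * deriv (cuspFunction 1 f) (𝕢 1 τ) := by
  have hq : ‖𝕢 1 (τ : ℂ)‖ < 1 := Periodic.norm_qParam_lt_one one_pos τ.im_pos
  have hF : DifferentiableAt ℂ (cuspFunction 1 f) (𝕢 1 τ) :=
    differentiableAt_cuspFunction one_pos hper hhol hbdd hq
  have hcomp : HasDerivAt (f ∘ ofComplex)
      (deriv (cuspFunction 1 f) (𝕢 1 τ) * (2 * π * I * 𝕢 1 τ)) τ := by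
    have h1 := hF.hasDerivAt.comp (τ : ℂ) (hasDerivAt_qParam_one τ)
    refine h1.congr_of_eventuallyEq (Eventually.of_forall fun z => ?_)
    exact comp_ofComplex_eq hper z
  simp only [normalizedDerivOfComplex, hcomp.deriv]
  have hpi : (2 * π * I : ℂ) ≠ 0 := by
    simp [Real.pi_ne_zero, I_ne_zero]
  field_simp

/-- `D f` tends to `0` at `i∞` for a holomorphic, `1`-periodic `f` bounded at `i∞`. -/
theorem tendsto_D_atImInfty {f : ℍ → ℂ} (hper : Periodic (f ∘ ofComplex) (1 : ℝ))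
    (hhol : MDiff f) (hbdd : IsBoundedAtImInfty f) :
    Tendsto (D f) atImInfty (𝓝 0) := by
  have hdiff : DifferentiableOn ℂ (cuspFunction 1 f) (Metric.ball 0 1) :=
    differentiableOn_cuspFunction_ball one_pos hper hhol hbdd
  have hcont : ContinuousAt (deriv (cuspFunction 1 f)) 0 := by
    have h2 : DifferentiableOn ℂ (deriv (cuspFunction 1 f)) (Metric.ball 0 1) :=
      hdiff.deriv Metric.isOpen_ball
    exact (h2.differentiableAt (Metric.ball_mem_nhds 0 one_pos)).continuousAt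
  have hq : Tendsto (fun τ : ℍ => 𝕢 1 (τ : ℂ)) atImInfty (𝓝 0) :=
    qParam_tendsto_atImInfty one_pos
  have h3 : Tendsto (fun τ : ℍ => 𝕢 1 (τ : ℂ) * deriv (cuspFunction 1 f) (𝕢 1 τ)) atImInfty
      (𝓝 (0 * deriv (cuspFunction 1 f) 0)) :=
    hq.mul (hcont.tendsto.comp hq)
  rw [zero_mul] at h3
  refine h3.congr fun τ => ?_
  exact (D_eq_qParam_mul_deriv hper hhol hbdd τ).symm

theorem isBoundedAtImInfty_D {f : ℍ → ℂ} (hper : Periodic (f ∘ ofComplex) (1 : ℝ))
    (hhol : MDiff f) (hbdd : IsBoundedAtImInfty f) :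
    IsBoundedAtImInfty (D f) :=
  (tendsto_D_atImInfty hper hhol hbdd).isBigO_one ℝ


theorem slash_SL_eq {k : ℤ} (f : ModularForm 𝒮ℒ k) (γ : SL(2, ℤ)) : (f : ℍ → ℂ) ∣[k] γ = f :=
  SlashInvariantFormClass.slash_action_eq f (Matrix.SpecialLinearGroup.mapGL ℝ γ) ⟨γ, rfl⟩

theorem periodic_mf {k : ℤ} (f : ModularForm 𝒮ℒ k) : Periodic ((f : ℍ → ℂ) ∘ ofComplex) (1 : ℝ) :=
  SlashInvariantFormClass.periodic_comp_ofComplex f one_mem_strictPeriods_SL

theorem bdd_mf {k : ℤ} (f : ModularForm 𝒮ℒ k) : IsBoundedAtImInfty (f : ℍ → ℂ) :=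
  ModularFormClass.bdd_at_infty f

theorem isBoundedAtImInfty_serre {k : ℤ} (f : ModularForm 𝒮ℒ k) :
    IsBoundedAtImInfty (serreDerivative k f) := by
  have h1 : IsBoundedAtImInfty (D f) :=
    isBoundedAtImInfty_D (periodic_mf f) (ModularFormClass.holo f) (bdd_mf f)
  have h2 : IsBoundedAtImInfty (fun z => (k : ℂ) * 12⁻¹ * (E2 z * f z)) :=
    (isBoundedAtImInfty_E2.mul (bdd_mf f)).const_mul_left ((k : ℂ) * 12⁻¹)
  have h3 := h1.sub h2
  have e : serreDerivative k f = D f - fun z => (k : ℂ) * 12⁻¹ * (E2 z * f z) := by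
    ext z; simp [serreDerivative]; ring
  rw [e]; exact h3

/-- The Serre derivative of a level-one modular form as a modular form of weight `k + 2`. -/
noncomputable def serreMF {k : ℤ} (f : ModularForm 𝒮ℒ k) : ModularForm 𝒮ℒ (k + 2) where
  toFun := serreDerivative k f
  slash_action_eq' A hA := by
    obtain ⟨γ, rfl⟩ := hA
    exact serreDerivative_slash_invariant (ModularFormClass.holo f) (slash_SL_eq f γ)
  holo' := serreDerivative_mdifferentiable k (ModularFormClass.holo f)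
  bdd_at_cusps' hc := by
    rw [OnePoint.isBoundedAt_iff_forall_SL2Z hc]
    intro γ _
    have : (serreDerivative k f) ∣[k + 2] γ = serreDerivative k f :=
      serreDerivative_slash_invariant (ModularFormClass.holo f) (slash_SL_eq f γ)
    rw [this]
    exact isBoundedAtImInfty_serre f

@[simp] theorem serreMF_apply {k : ℤ} (f : ModularForm 𝒮ℒ k) (z : ℍ) :
    serreMF f z = D f z - (k : ℂ) * 12⁻¹ * E2 z * f z := rfl


theorem tendsto_cuspFunction_zero {f : ℍ → ℂ} (hper : Periodic (f ∘ ofComplex) (1 : ℝ))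
    (hhol : MDiff f) (hbdd : IsBoundedAtImInfty f) :
    Tendsto f atImInfty (𝓝 (cuspFunction 1 f 0)) := by
  have hc : ContinuousAt (cuspFunction 1 f) 0 :=
    (differentiableAt_cuspFunction one_pos hper hhol hbdd (by simp)).continuousAt
  have := hc.tendsto.comp (qParam_tendsto_atImInfty one_pos)
  refine this.congr fun τ => ?_
  exact eq_cuspFunction τ one_ne_zero hper

theorem periodic_E2 : Periodic (E2 ∘ ofComplex) (1 : ℝ) := by
  intro w
  by_cases hw : 0 < im w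
  · have hw' : 0 < im (w + (1 : ℝ)) := by simpa using hw
    simp only [comp_apply, ofComplex_apply_of_im_pos hw', ofComplex_apply_of_im_pos hw]
    rw [E2_eq_tsum_cexp, E2_eq_tsum_cexp]
    congr 3
    ext n
    congr 2
    have : (2 * π * I * (w + ((1 : ℝ) : ℂ))) = 2 * π * I * w + 2 * π * I := by push_cast; ring
    rw [this, Complex.exp_add, Complex.exp_two_pi_mul_I, mul_one]
  · have : im (w + (1 : ℝ)) ≤ 0 := by simpa using not_lt.mp hw
    rw [comp_apply, comp_apply, ofComplex_apply_of_im_nonpos this,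
      ofComplex_apply_of_im_nonpos (not_lt.mp hw)]

theorem tendsto_E2 : Tendsto E2 atImInfty (𝓝 1) := by
  have h := tendsto_cuspFunction_zero periodic_E2 E2_mdifferentiable isBoundedAtImInfty_E2
  have ha : AnalyticAt ℂ (cuspFunction 1 E2) 0 :=
    analyticAt_cuspFunction_zero one_pos periodic_E2 E2_mdifferentiable isBoundedAtImInfty_E2
  have hs := hasFPowerSeriesOnBall_cuspFunction (h := 1) (f := E2)
    (c := fun m : ℕ => (if m = 0 then 1 else -24 * (ArithmeticFunction.sigma 1 m : ℂ))) one_pos ha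
    (fun τ => by
      simpa only [Function.Periodic.qParam, ofReal_one, div_one] using hasSum_qExpansion_E2 (z := τ))
  have h0 := hs.coeff_zero (fun _ => 0)
  simp at h0
  rw [← h0] at h
  exact h


theorem tendsto_mf {k : ℤ} (f : ModularForm 𝒮ℒ k) :
    Tendsto (f : ℍ → ℂ) atImInfty (𝓝 ((qExpansion 1 f).coeff 0)) := by
  have h := tendsto_cuspFunction_zero (periodic_mf f) (ModularFormClass.holo f) (bdd_mf f)
  have e : (qExpansion 1 f).coeff 0 = cuspFunction 1 f 0 := by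
    simp [qExpansion_coeff]
  rw [e]; exact h

theorem tendsto_E₄ : Tendsto (E₄ : ℍ → ℂ) atImInfty (𝓝 1) := by
  have h := tendsto_mf E₄
  rwa [E_qExpansion_coeff_zero _ ⟨2, rfl⟩] at h

theorem tendsto_E₆ : Tendsto (E₆ : ℍ → ℂ) atImInfty (𝓝 1) := by
  have h := tendsto_mf E₆
  rwa [E_qExpansion_coeff_zero _ ⟨3, rfl⟩] at h

theorem exists_smul_of_rank_one {k : ℤ} (hr : Module.rank ℂ (ModularForm 𝒮ℒ k) = 1)
    {e : ModularForm 𝒮ℒ k} (he : e ≠ 0) (g : ModularForm 𝒮ℒ k) : ∃ c : ℂ, g = c • e := by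
  have hfin : Module.finrank ℂ (ModularForm 𝒮ℒ k) = 1 :=
    Module.finrank_eq_of_rank_eq hr
  obtain ⟨c, hc⟩ := (finrank_eq_one_iff_of_nonzero' e he).mp hfin g
  exact ⟨c, hc.symm⟩



theorem tendsto_D_mf {k : ℤ} (f : ModularForm 𝒮ℒ k) : Tendsto (D f) atImInfty (𝓝 0) :=
  tendsto_D_atImInfty (periodic_mf f) (ModularFormClass.holo f) (bdd_mf f)

theorem ramanujan_E₄ (z : ℍ) : D E₄ z = (E2 z * E₄ z - E₆ z) / 3 := by
  set g : ModularForm 𝒮ℒ 6 := ModularForm.mcast (by norm_num : (4 : ℤ) + 2 = 6) (serreMF E₄) with hg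
  obtain ⟨c, hc⟩ := exists_smul_of_rank_one levelOne_weight_six_rank_one
    (E_ne_zero (k := 6) (by norm_num) ⟨3, rfl⟩) g
  have hpt : ∀ z : ℍ, D E₄ z - (4 : ℂ) * 12⁻¹ * E2 z * E₄ z = c * E₆ z := by
    intro z
    have := congrArg (fun f : ModularForm 𝒮ℒ 6 => f z) hc
    exact this
  have hlim1 : Tendsto (fun z : ℍ => D E₄ z - (4 : ℂ) * 12⁻¹ * E2 z * E₄ z) atImInfty
      (𝓝 (0 - (4 : ℂ) * 12⁻¹ * 1 * 1)) :=
    (tendsto_D_mf E₄).sub (((tendsto_const_nhds.mul tendsto_E2)).mul tendsto_E₄)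
  have hlim2 : Tendsto (fun z : ℍ => c * E₆ z) atImInfty (𝓝 (c * 1)) :=
    tendsto_const_nhds.mul tendsto_E₆
  have hc' : c = -(1 / 3) := by
    have := tendsto_nhds_unique (hlim1.congr hpt) hlim2
    linear_combination -this
  have := hpt z
  rw [hc'] at this
  linear_combination this


theorem rank_weight_eight : Module.rank ℂ (ModularForm 𝒮ℒ ((8 : ℕ) : ℤ)) = 1 := by
  have h := dimension_level_one 8 ⟨4, rfl⟩
  rw [h]
  norm_num [Nat.ModEq]

theorem ramanujan_E₆ (z : ℍ) : D E₆ z = (E2 z * E₆ z - E₄ z * E₄ z) / 2 := by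
  set g : ModularForm 𝒮ℒ ((8 : ℕ) : ℤ) :=
    ModularForm.mcast (by norm_num : (6 : ℤ) + 2 = ((8 : ℕ) : ℤ)) (serreMF E₆) with hg
  set e : ModularForm 𝒮ℒ ((8 : ℕ) : ℤ) :=
    ModularForm.mcast (by norm_num : (4 : ℤ) + 4 = ((8 : ℕ) : ℤ)) (E₄.mul E₄) with he
  have he_apply : ∀ z : ℍ, e z = E₄ z * E₄ z := fun z => rfl
  have hlime : Tendsto (fun z : ℍ => e z) atImInfty (𝓝 (1 * 1)) := tendsto_E₄.mul tendsto_E₄
  have he0 : e ≠ 0 := by
    intro h0
    have : Tendsto (fun z : ℍ => e z) atImInfty (𝓝 0) := by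
      rw [h0]; exact tendsto_const_nhds
    have := tendsto_nhds_unique hlime this
    norm_num at this
  obtain ⟨c, hc⟩ := exists_smul_of_rank_one rank_weight_eight he0 g
  have hpt : ∀ z : ℍ, D E₆ z - (6 : ℂ) * 12⁻¹ * E2 z * E₆ z = c * (E₄ z * E₄ z) := by
    intro z
    have := congrArg (fun f : ModularForm 𝒮ℒ ((8 : ℕ) : ℤ) => f z) hc
    exact this
  have hlim1 : Tendsto (fun z : ℍ => D E₆ z - (6 : ℂ) * 12⁻¹ * E2 z * E₆ z) atImInfty
      (𝓝 (0 - (6 : ℂ) * 12⁻¹ * 1 * 1)) :=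
    (tendsto_D_mf E₆).sub (((tendsto_const_nhds.mul tendsto_E2)).mul tendsto_E₆)
  have hlim2 : Tendsto (fun z : ℍ => c * (E₄ z * E₄ z)) atImInfty (𝓝 (c * (1 * 1))) :=
    tendsto_const_nhds.mul (tendsto_E₄.mul tendsto_E₄)
  have hc' : c = -(1 / 2) := by
    have := tendsto_nhds_unique (hlim1.congr hpt) hlim2
    linear_combination -this
  have := hpt z
  rw [hc'] at this
  linear_combination this

end Fermat.Agent.S24.JDeriv
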